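import Fermat.Agent.PadicDirichletL.Bernoulli
import Mathlib.FieldTheory.KummerExtension
import Mathlib.Analysis.SpecialFunctions.Log.Basic

/-!
# The distribution relation for `log |1 - ζ^a|`

For `θ` modulo `f ∣ M` and `w` a primitive `M`-th root of unity the sum of `θ(a) log |1 - w^a|`
over the `a < M` prime to a set `P` of primes of `M` is `∏ (1 - θ(q))`, `q ∈ P`, times the sum of
level `f`.
-/

set_option autoImplicit false
set_option linter.unusedSectionVars false
set_option linter.style.haveILetI false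

noncomputable section

open Finset
open FA.PadicDirichletL (sum_range_blocks sum_range_eq_sum_zmod)

namespace FA.CycloUnitIndex

variable {f : ℕ} [NeZero f] (θ : DirichletCharacter ℂ f)

/-- The sum over the arguments prime to `P`. -/
def coprimeSum (P : Finset ℕ) (M : ℕ) (w : ℂ) : ℂ :=
  ∑ a ∈ (range M).filter fun a => ∀ q ∈ P, ¬ q ∣ a, θ a * (Real.log ‖1 - w ^ a‖ : ℂ)

/-- The sum of level `f`. -/
def levelSum (z : ℂ) : ℂ := ∑ b ∈ range f, θ b * (Real.log ‖1 - z ^ b‖ : ℂ)

theorem levelSum_eq_sum_zmod (z : ℂ) :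
    levelSum θ z = ∑ b : ZMod f, θ b * (Real.log ‖1 - z ^ b.val‖ : ℂ) := by
  rw [levelSum, sum_range_eq_sum_zmod]
  exact sum_congr rfl fun b _ => by rw [ZMod.natCast_zmod_val]

/-- No prime removed. -/
theorem coprimeSum_empty (hf : 1 < f) {M : ℕ} [NeZero M] {w : ℂ} (hw : IsPrimitiveRoot w M)
    (hfM : f ∣ M) : coprimeSum θ ∅ M w = levelSum θ (w ^ (M / f)) := by
  haveI : Fact (1 < f) := ⟨hf⟩
  obtain ⟨m, rfl⟩ := hfM
  rw [Nat.mul_div_cancel_left m (NeZero.pos f), coprimeSum, filter_true_of_mem (by simp),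
    sum_range_blocks f, levelSum]
  refine sum_congr rfl fun b hb => ?_
  rcases eq_or_ne b 0 with rfl | hb0
  · rw [Nat.cast_zero, θ.map_nonunit not_isUnit_zero, zero_mul]
    refine sum_eq_zero fun c _ => ?_
    rw [show ((0 + f * c : ℕ) : ZMod f) = 0 by simp, θ.map_nonunit not_isUnit_zero, zero_mul]
  have hm : 0 < m := Nat.pos_of_ne_zero fun e => NeZero.ne (f * m) (by rw [e, mul_zero])
  have hμ : IsPrimitiveRoot (w ^ f) m := hw.pow (NeZero.pos _) rfl
  have hne : ∀ c, c < m → 1 - w ^ (b + f * c) ≠ 0 := fun c hc h => by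
    have hd := (hw.pow_eq_one_iff_dvd _).1 (sub_eq_zero.1 h).symm
    have hlt : b + f * c < f * m := by
      calc b + f * c < f + f * c := by have := mem_range.1 hb; omega
        _ = f * (c + 1) := by ring
        _ ≤ f * m := Nat.mul_le_mul_left f hc
    have := Nat.eq_zero_of_dvd_of_lt hd hlt
    omega
  have hprod : 1 - (w ^ m) ^ b = ∏ c ∈ range m, (1 - w ^ (b + f * c)) := by
    have h := congrArg (Polynomial.eval 1)
      (X_pow_sub_C_eq_prod hμ hm (α := w ^ b) (rfl : (w ^ b) ^ m = _))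
    simp only [Polynomial.eval_sub, Polynomial.eval_pow, Polynomial.eval_X, Polynomial.eval_C,
      one_pow, Polynomial.eval_prod] at h
    rw [← pow_mul, mul_comm, pow_mul, h]
    exact prod_congr rfl fun c _ => by rw [← pow_mul, ← pow_add, add_comm]
  rw [hprod, norm_prod, Real.log_prod fun c hc => norm_ne_zero_iff.2 (hne c (mem_range.1 hc)),
    Complex.ofReal_sum, mul_sum]
  exact sum_congr rfl fun c _ => by simp

/-- **The relation.** -/
theorem coprimeSum_eq (hf : 1 < f) (P : Finset ℕ) (hP : ∀ q ∈ P, q.Prime) :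
    ∀ {M : ℕ} [NeZero M] {w : ℂ}, IsPrimitiveRoot w M → f ∣ M → (∀ q ∈ P, q ∣ M) →
      coprimeSum θ P M w = (∏ q ∈ P, (1 - θ q)) * levelSum θ (w ^ (M / f)) := by
  induction P using Finset.induction_on with
  | empty =>
    intro M _ w hw hfM _
    rw [prod_empty, one_mul, coprimeSum_empty θ hf hw hfM]
  | insert q P hq ih =>
    intro M _ w hw hfM hdvd
    rw [forall_mem_insert] at hdvd
    obtain ⟨⟨M', hM'⟩, hP'⟩ := hdvd
    have hqp : q.Prime := hP q (mem_insert_self _ _)
    have hPp : ∀ q' ∈ P, q'.Prime := fun q' h => hP q' (mem_insert_of_mem h)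
    have hsplit : coprimeSum θ P M w = coprimeSum θ (insert q P) M w +
        θ q * ∑ c ∈ (range M').filter (fun c => ∀ q' ∈ P, ¬ q' ∣ c),
          θ c * (Real.log ‖1 - (w ^ q) ^ c‖ : ℂ) := by
      rw [coprimeSum, coprimeSum,
        ← sum_filter_add_sum_filter_not ((range M).filter fun a => ∀ q' ∈ P, ¬ q' ∣ a)
          (fun a => ¬ q ∣ a), filter_filter]
      congr 1
      · refine sum_congr (filter_congr fun a _ => ?_) fun _ _ => rfl
        simp [and_comm]
      · have hiff : ∀ c, (∀ q' ∈ P, ¬ q' ∣ q * c) ↔ ∀ q' ∈ P, ¬ q' ∣ c := fun c =>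
          forall₂_congr fun q' h' => by
            rw [(hPp q' h').dvd_mul, or_iff_right fun h =>
              hq ((Nat.prime_dvd_prime_iff_eq (hPp q' h') hqp).1 h ▸ h')]
        rw [mul_sum, filter_filter]
        refine (sum_nbij' (fun c => q * c) (fun a => a / q) (fun c hc => ?_) (fun a ha => ?_)
          (fun c _ => Nat.mul_div_cancel_left c hqp.pos)
          (fun a ha => Nat.mul_div_cancel' (not_not.1 (mem_filter.1 ha).2.2)) fun c _ => ?_).symm
        · obtain ⟨hc1, hc2⟩ := mem_filter.1 hc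
          refine mem_filter.2 ⟨mem_range.2 (hM' ▸ Nat.mul_lt_mul_of_pos_left (mem_range.1 hc1)
            hqp.pos), (hiff c).2 hc2, not_not.2 (dvd_mul_right q c)⟩
        · obtain ⟨ha1, ha2, ha3⟩ := mem_filter.1 ha
          obtain ⟨c, rfl⟩ := not_not.1 ha3
          rw [Nat.mul_div_cancel_left c hqp.pos]
          refine mem_filter.2 ⟨mem_range.2 ?_, (hiff c).1 ha2⟩
          exact Nat.lt_of_mul_lt_mul_left (hM' ▸ mem_range.1 ha1)
        · rw [Nat.cast_mul, map_mul, pow_mul, mul_assoc]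
    rw [prod_insert hq, mul_assoc, eq_sub_of_add_eq hsplit.symm, ih hPp hw hfM hP', sub_mul,
      one_mul, sub_right_inj]
    rcases eq_or_ne (θ (q : ZMod f)) 0 with h0 | h0
    · rw [h0, zero_mul, zero_mul]
    have hcop : Nat.Coprime f q := by
      by_contra h
      refine h0 (θ.map_nonunit fun hu => h ?_)
      exact ((ZMod.isUnit_iff_coprime q f).1 hu).symm
    have hfM' : f ∣ M' := hcop.dvd_of_dvd_mul_left (hM' ▸ hfM)
    haveI : NeZero M' := ⟨fun e => NeZero.ne M (by rw [hM', e, mul_zero])⟩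
    have hw' : IsPrimitiveRoot (w ^ q) M' := hw.pow (NeZero.pos _) hM'
    congr 1
    rw [show M / f = q * (M' / f) by rw [hM', Nat.mul_div_assoc q hfM'], pow_mul]
    refine ih hPp hw' hfM' fun q' h' => ?_
    have h := hP' q' h'
    rw [hM', (hPp q' h').dvd_mul] at h
    exact h.resolve_left fun e => hq ((Nat.prime_dvd_prime_iff_eq (hPp q' h') hqp).1 e ▸ h')

/-- Over the units modulo `N`. -/
theorem sum_units_eq (hf : 1 < f) {N : ℕ} [NeZero N] (hfN : f ∣ N) {w : ℂ}
    (hw : IsPrimitiveRoot w N) :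
    ∑ g : (ZMod N)ˣ, θ (((g : ZMod N).val : ℕ) : ZMod f) *
        (Real.log ‖1 - w ^ (g : ZMod N).val‖ : ℂ) =
      (∏ q ∈ N.primeFactors, (1 - θ q)) * levelSum θ (w ^ (N / f)) := by
  rw [← coprimeSum_eq θ hf _ (fun q hq => Nat.prime_of_mem_primeFactors hq) hw hfN
    fun q hq => Nat.dvd_of_mem_primeFactors hq, coprimeSum]
  have hiff : ∀ a : ℕ, (∀ q ∈ N.primeFactors, ¬ q ∣ a) ↔ a.Coprime N := fun a => by
    refine ⟨fun h => Nat.coprime_of_dvd fun q hqp hqa hqN =>
      h q (Nat.mem_primeFactors.2 ⟨hqp, hqN, NeZero.ne N⟩) hqa, fun h q hq hqa => ?_⟩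
    exact (Nat.prime_of_mem_primeFactors hq).ne_one
      (Nat.eq_one_of_dvd_coprimes h hqa (Nat.dvd_of_mem_primeFactors hq))
  refine sum_bij' (fun g _ => (g : ZMod N).val)
    (fun a ha => ZMod.unitOfCoprime a ((hiff a).1 (mem_filter.1 ha).2))
    (fun g _ => mem_filter.2 ⟨mem_range.2 (ZMod.val_lt _),
      (hiff _).2 (ZMod.val_coe_unit_coprime g)⟩) (fun _ _ => mem_univ _)
    (fun g _ => Units.ext (by rw [ZMod.coe_unitOfCoprime, ZMod.natCast_zmod_val]))
    (fun a ha => by rw [ZMod.coe_unitOfCoprime, ZMod.val_natCast_of_lt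
      (mem_range.1 (mem_filter.1 ha).1)])
    fun g _ => rfl

end FA.CycloUnitIndex
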