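import Fermat.Agent.CycloUnitIndex.Value

/-!
# Square roots of the cyclotomic units

`(1 - ζ^a) / (1 - ζ)` times a root of unity is fixed by complex conjugation, so its norm to a real
field is, up to sign, a square; the units with square in the group of norms have index
`h ∏ ∏ |1 - χ₀(q)|`.
-/

set_option autoImplicit false
set_option linter.unusedSectionVars false
set_option linter.style.haveILetI false

noncomputable section

open NumberField Finset
open FA.PadicClassNumber (galEquiv_symm_neg_one_mem)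
open scoped Classical

namespace FA.CycloUnitIndex

variable {N : ℕ} [NeZero N] {K : Type} [Field K] [NumberField K] [IsCyclotomicExtension {N} ℚ K]
  [IsAbelianGalois ℚ K] (E : IntermediateField ℚ K) [IsGalois ℚ E] [IsTotallyReal E]
  {ζ : K} (hζ : IsPrimitiveRoot ζ N) (hN : 1 < N)

local notation "gal" => IsCyclotomicExtension.Rat.galEquivZMod N K

/-- The norm of a fixed element of an involution fixing `E` is a square. -/
theorem exists_sq_eq_norm {c : Gal(K/ℚ)} (hc : c ∈ E.fixingSubgroup) (hc1 : c ≠ 1) (hc2 : c * c = 1)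
    {ξ : K} (hξ : c ξ = ξ) : ∃ y : E, y ^ 2 = Algebra.norm E ξ := by
  set H := E.fixingSubgroup
  set C : H := ⟨c, hc⟩
  have hord : orderOf C = 2 := orderOf_eq_prime
    (Subtype.ext (by rw [sq]; exact hc2)) fun e => hc1 (congrArg Subtype.val e)
  have hmem : ∀ z : H, z ∈ Subgroup.zpowers C → z = 1 ∨ z = C := fun z hz => by
    rw [mem_zpowers_iff_mem_range_orderOf, hord] at hz
    obtain ⟨k, hk, rfl⟩ := mem_image.1 hz
    have := mem_range.1 hk
    interval_cases k
    · exact Or.inl (pow_zero C)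
    · exact Or.inr (pow_one C)
  set F : H ⧸ Subgroup.zpowers C → K := fun q => (q.out : H).1 ξ
  have hF : ∀ h : H, F (QuotientGroup.mk h) = h.1 ξ := fun h => by
    obtain ⟨z, hz⟩ := QuotientGroup.mk_out_eq_mul (Subgroup.zpowers C) h
    simp only [F, hz, Subgroup.coe_mul, AlgEquiv.mul_apply]
    rcases hmem z z.2 with h1 | h1
    · rw [h1]; rfl
    · rw [h1, show (C : H).1 ξ = ξ from hξ]
  set ε := ∏ q, F q
  have hfix : ε ∈ E := by
    rw [← IsGalois.fixedField_fixingSubgroup E, IntermediateField.mem_fixedField_iff]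
    intro h hh
    rw [map_prod]
    refine Fintype.prod_bijective (fun q => (⟨h, hh⟩ : H) • q) (MulAction.bijective _) _ _
      fun q => ?_
    show h (F q) = F _
    conv_rhs => rw [← QuotientGroup.out_eq' q]
    rw [show (⟨h, hh⟩ : H) • ((q.out : H) : H ⧸ Subgroup.zpowers C) =
      QuotientGroup.mk ((⟨h, hh⟩ : H) * q.out) from rfl, hF, Subgroup.coe_mul, AlgEquiv.mul_apply]
  refine ⟨⟨ε, hfix⟩, (algebraMap E K).injective ?_⟩
  rw [map_pow, show algebraMap E K ⟨ε, hfix⟩ = ε from rfl, Algebra.norm_eq_prod_automorphisms,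
    ← prod_pow]
  refine Eq.trans ?_ (Fintype.prod_equiv (E.fixingSubgroupEquiv).toEquiv
    (fun h : H => h.1 ξ) (fun ρ : Gal(K/E) => ρ ξ) fun h => rfl)
  rw [← prod_fiberwise univ (fun h : H => (h : H ⧸ Subgroup.zpowers C))]
  refine prod_congr rfl fun q _ => ?_
  have hne : q.out ≠ q.out * C := fun e => hc1 (congrArg Subtype.val (left_eq_mul.1 e))
  rw [show (univ.filter fun h : H => (h : H ⧸ Subgroup.zpowers C) = q) = {q.out, q.out * C} from
    Finset.ext fun h => ?_, prod_pair hne, sq]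
  · congr 1
    show F q = (q.out * C).1 ξ
    rw [Subgroup.coe_mul, AlgEquiv.mul_apply, show C.1 ξ = ξ from hξ]
  · simp only [mem_filter, mem_univ, true_and, mem_insert, mem_singleton]
    refine ⟨fun e => ?_, ?_⟩
    · subst e
      obtain ⟨z, hz⟩ := QuotientGroup.mk_out_eq_mul (Subgroup.zpowers C) h
      rcases hmem z z.2 with h1 | h1
      · exact Or.inl (by rw [hz, h1, mul_one])
      · exact Or.inr (by
          rw [hz, h1, mul_assoc, show C * C = 1 from Subtype.ext hc2, mul_one])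
    · rintro (rfl | rfl)
      · exact QuotientGroup.out_eq' q
      · rw [QuotientGroup.mk_mul_of_mem _ (Subgroup.mem_zpowers C)]
        exact QuotientGroup.out_eq' q

include hζ hN

/-- **Square roots.** -/
theorem exists_unit_sqrt {a : ℕ} (ha : a.Coprime N) {u : (𝓞 E)ˣ}
    (hu : ((u : 𝓞 E) : E) = Algebra.norm E ((1 - ζ ^ a) / (1 - ζ))) :
    ∃ v : (𝓞 E)ˣ, v ^ 2 = u ∨ v ^ 2 = -u := by
  suffices h : ∃ y : E, y ^ 2 = ((u : 𝓞 E) : E) ∨ y ^ 2 = -((u : 𝓞 E) : E) by
    obtain ⟨y, hy⟩ := h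
    obtain ⟨w, hw, hwu⟩ : ∃ w : (𝓞 E)ˣ, (w = u ∨ w = -u) ∧ y ^ 2 = ((w : 𝓞 E) : E) := by
      rcases hy with h | h
      · exact ⟨u, Or.inl rfl, h⟩
      · exact ⟨-u, Or.inr rfl, h.trans (by simp)⟩
    have hint : IsIntegral ℤ y :=
      IsIntegral.of_pow two_pos (hwu ▸ RingOfIntegers.isIntegral_coe (w : 𝓞 E))
    have hint' : IsIntegral ℤ y⁻¹ := IsIntegral.of_pow two_pos (by
      rw [inv_pow, hwu, inv_eq_of_mul_eq_one_right (show ((w : 𝓞 E) : E) * ((w⁻¹ : (𝓞 E)ˣ) : 𝓞 E) =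
        1 by rw [← map_mul, ← Units.val_mul, mul_inv_cancel, Units.val_one, map_one])]
      exact RingOfIntegers.isIntegral_coe _)
    have hy0 : y ≠ 0 := fun e => by
      rw [e, zero_pow two_ne_zero] at hwu
      exact (RingOfIntegers.coe_ne_zero_iff.2 w.ne_zero) hwu.symm
    refine ⟨⟨⟨y, hint⟩, ⟨y⁻¹, hint'⟩, RingOfIntegers.ext (mul_inv_cancel₀ hy0),
      RingOfIntegers.ext (inv_mul_cancel₀ hy0)⟩, ?_⟩
    rcases hw with rfl | rfl
    · exact Or.inl (Units.ext (RingOfIntegers.ext hwu))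
    · exact Or.inr (Units.ext (RingOfIntegers.ext hwu))
  rcases eq_or_ne N 2 with rfl | hN2
  · refine ⟨1, Or.inl ?_⟩
    rw [hu, show ζ = -1 from hζ.eq_neg_one_of_two_right,
      (Nat.coprime_two_right.1 ha).neg_one_pow, div_self (by norm_num), map_one, one_pow]
  haveI : Fact (2 < N) := ⟨by omega⟩
  set c := (gal).symm (-1)
  have hc1 : c ≠ 1 := fun e => ZMod.neg_one_ne_one (n := N) (by
    have h1 := congrArg gal e
    rw [MulEquiv.apply_symm_apply, map_one] at h1
    simpa using congrArg Units.val h1)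
  have hc2 : c * c = 1 := by rw [← map_mul, neg_one_mul, neg_neg, map_one]
  have hζ0 : ζ ≠ 0 := hζ.ne_zero (NeZero.ne N)
  have hcζ : c ζ = ζ⁻¹ := by
    rw [IsCyclotomicExtension.Rat.galEquivZMod_apply_of_pow_eq N K _ hζ.pow_eq_one,
      MulEquiv.apply_symm_apply]
    refine eq_inv_of_mul_eq_one_left ?_
    rw [← pow_succ, hζ.pow_eq_one_iff_dvd, ← ZMod.natCast_eq_zero_iff, Nat.cast_succ,
      ZMod.natCast_zmod_val, Units.val_neg, Units.val_one, neg_add_cancel]
  obtain ⟨t, ht⟩ : ∃ t : ℕ, N ∣ 2 * t + a + (N - 1) := by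
    have key : ∃ s : ZMod N, 2 * s = 1 - (a : ZMod N) := by
      rcases N.even_or_odd with he | ho
      · obtain ⟨b, hb⟩ := (Nat.coprime_two_right.1 (ha.coprime_dvd_right he.two_dvd) : Odd a)
        exact ⟨-(b : ZMod N), by rw [hb]; push_cast; ring⟩
      · obtain ⟨w, hw⟩ := (ZMod.isUnit_iff_coprime 2 N).2 (Nat.coprime_two_left.2 ho)
        exact ⟨(w⁻¹ : (ZMod N)ˣ) * (1 - (a : ZMod N)), by
          rw [show (2 : ZMod N) = ((2 : ℕ) : ZMod N) by norm_num, ← hw, Units.mul_inv_cancel_left]⟩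
    obtain ⟨s, hs⟩ := key
    refine ⟨s.val, ?_⟩
    rw [← ZMod.natCast_eq_zero_iff, Nat.cast_add, Nat.cast_add, Nat.cast_mul, Nat.cast_two,
      ZMod.natCast_zmod_val, hs, Nat.cast_sub (NeZero.one_le), ZMod.natCast_self, Nat.cast_one]
    ring
  have h2t : ζ ^ t * ζ ^ t * ζ ^ a = ζ := by
    have h1 : ζ ^ (2 * t + a + (N - 1)) = 1 := (hζ.pow_eq_one_iff_dvd _).2 ht
    have h2 : ζ ^ (N - 1) * ζ = 1 := by
      rw [← pow_succ, Nat.sub_add_cancel NeZero.one_le, hζ.pow_eq_one]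
    rw [two_mul, pow_add, pow_add, pow_add] at h1
    linear_combination ζ * h1 - ζ ^ t * ζ ^ t * ζ ^ a * h2
  set x := (1 - ζ ^ a) / (1 - ζ)
  have hxξ : c (x * ζ ^ t) = x * ζ ^ t := by
    have hπ : (1 : K) - ζ ≠ 0 := sub_ne_zero.2 (hζ.ne_one hN).symm
    have hπ' : (1 : K) - ζ⁻¹ ≠ 0 := sub_ne_zero.2 fun e => hπ (by
      rw [← inv_inv ζ, ← e, inv_one, sub_self])
    have hπ'' : ζ - 1 ≠ 0 := fun e => hπ (by linear_combination -e)
    simp only [x, map_mul, map_div₀, map_sub, map_one, map_pow, hcζ, inv_pow]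
    have hz : ζ ^ a ≠ 0 := pow_ne_zero _ hζ0
    have hzt : ζ ^ t ≠ 0 := pow_ne_zero _ hζ0
    field_simp
    linear_combination (1 - ζ ^ a) * (1 - ζ) * h2t
  obtain ⟨y, hy⟩ := exists_sq_eq_norm E (galEquiv_symm_neg_one_mem N K E) hc1 hc2 hxξ
  have hroot : Algebra.norm E (ζ ^ t) ^ N = 1 := by
    rw [← map_pow, ← pow_mul, mul_comm, pow_mul, hζ.pow_eq_one, one_pow, map_one]
  rw [map_mul, ← hu] at hy
  rcases eq_one_or_neg_one_of_pow K E (NeZero.ne N) hroot with h | h
  · exact ⟨y, Or.inl (hy.trans (by rw [h, mul_one]))⟩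
  · exact ⟨y, Or.inr (hy.trans (by rw [h, mul_neg_one]))⟩

/-- The units whose square is a cyclotomic unit. -/
theorem index_comap_sq :
    (((cycSubgroup N K E ζ).comap (powMonoidHom 2)).index : ℝ) =
      classNumber E * ∏ χ ∈ (univ.filter fun χ : DirichletCharacter ℂ N =>
        χ ∈ FA.AbelianZeta.fieldChars N K E).erase 1, eulerFactor χ := by
  obtain ⟨φ⟩ : Nonempty (K →+* ℂ) := ⟨(IsAlgClosed.lift : K →ₐ[ℚ] ℂ).toRingHom⟩
  obtain ⟨u, hu, -⟩ := exists_family E hζ hN φ
  have hsqrt : ∀ i, ∃ v : (𝓞 E)ˣ, v ^ 2 = u i ∨ v ^ 2 = -u i := fun i => by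
    have hmem : u i ∈ cycSubgroup N K E ζ :=
      hu ▸ Subgroup.mem_sup_left (Subgroup.subset_closure ⟨i, rfl⟩)
    refine Subgroup.closure_induction (p := fun x _ => ∃ v : (𝓞 E)ˣ, v ^ 2 = x ∨ v ^ 2 = -x)
      ?_ ?_ ?_ ?_ hmem
    · rintro x (rfl | ⟨a, ha, hx⟩)
      · exact ⟨1, Or.inr (by simp)⟩
      · exact exists_unit_sqrt E hζ hN ha hx
    · exact ⟨1, Or.inl (one_pow 2)⟩
    · rintro x y - - ⟨v, hv⟩ ⟨w, hw⟩
      refine ⟨v * w, ?_⟩
      rcases hv with hv | hv <;> rcases hw with hw | hw <;> rw [mul_pow, hv, hw]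
      · exact Or.inl rfl
      · exact Or.inr (mul_neg _ _)
      · exact Or.inr (neg_mul _ _)
      · exact Or.inl (neg_mul_neg _ _)
    · rintro x - ⟨v, hv⟩
      refine ⟨v⁻¹, ?_⟩
      rcases hv with hv | hv <;> rw [inv_pow, hv]
      · exact Or.inl rfl
      · exact Or.inr inv_neg
  choose v hv using hsqrt
  have hneg : (-1 : (𝓞 E)ˣ) ∈ Units.torsion E := neg_one_mem_torsion K E
  set W := Subgroup.closure (Set.range v) ⊔ Units.torsion E
  have hW : W = (cycSubgroup N K E ζ).comap (powMonoidHom 2) := by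
    refine le_antisymm (sup_le ((Subgroup.closure_le _).2 ?_) fun z hz => ?_) fun x hx => ?_
    · rintro _ ⟨i, rfl⟩
      show v i ^ 2 ∈ cycSubgroup N K E ζ
      rw [← hu]
      rcases hv i with h | h
      · exact h ▸ Subgroup.mem_sup_left (Subgroup.subset_closure ⟨i, rfl⟩)
      · rw [h, ← mul_neg_one]
        exact mul_mem (Subgroup.mem_sup_left (Subgroup.subset_closure ⟨i, rfl⟩))
          (Subgroup.mem_sup_right hneg)
    · show z ^ 2 ∈ cycSubgroup N K E ζ
      exact hu ▸ Subgroup.mem_sup_right (pow_mem hz 2)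
    · have hle : cycSubgroup N K E ζ ≤ W.map (powMonoidHom 2) ⊔ Units.torsion E := by
        rw [← hu]
        refine sup_le ((Subgroup.closure_le _).2 ?_) le_sup_right
        rintro _ ⟨i, rfl⟩
        have h1 : v i ^ 2 ∈ W.map (powMonoidHom 2) := ⟨v i,
          Subgroup.mem_sup_left (Subgroup.subset_closure ⟨i, rfl⟩), rfl⟩
        rcases hv i with h | h
        · exact h ▸ Subgroup.mem_sup_left h1
        · rw [← neg_neg (u i), ← h, ← mul_neg_one]
          exact mul_mem (Subgroup.mem_sup_left h1) (Subgroup.mem_sup_right hneg)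
      obtain ⟨_, ⟨w, hw, rfl⟩, z, hz, hwz⟩ := Subgroup.mem_sup.1 (hle hx)
      have hxw : (x / w) ^ 2 = z := by
        rw [div_pow, div_eq_iff_eq_mul']
        exact hwz.symm
      have htor : x / w ∈ Units.torsion E := (CommGroup.mem_torsion (G := (𝓞 E)ˣ) _).2
        (IsOfFinOrder.of_pow (hxw ▸ (CommGroup.mem_torsion (G := (𝓞 E)ˣ) z).1 hz) two_ne_zero)
      rw [← mul_div_cancel w x]
      exact mul_mem hw (Subgroup.mem_sup_right htor)
  have hreg : Units.regOfFamily u = 2 ^ Units.rank E * Units.regOfFamily v := by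
    obtain ⟨w₀⟩ : Nonempty (InfinitePlace E) := inferInstance
    have hc : Fintype.card {w : InfinitePlace E // w ≠ w₀} = Fintype.card (Fin (Units.rank E)) := by
      rw [Fintype.card_fin, Fintype.card_subtype_compl, Fintype.card_subtype_eq]
      rfl
    obtain ⟨e⟩ := (Fintype.truncEquivOfCardEq hc).nonempty
    rw [Units.regOfFamily_eq_det u w₀ e, Units.regOfFamily_eq_det v w₀ e]
    have hlog : ∀ (i : Fin (Units.rank E)) (w : InfinitePlace E),
        Real.log (w ((u i : 𝓞 E) : E)) = 2 * Real.log (w ((v i : 𝓞 E) : E)) := fun i w => by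
      have h : w ((u i : 𝓞 E) : E) = w ((v i : 𝓞 E) : E) ^ 2 := by
        rw [← map_pow]
        rcases hv i with h | h <;> rw [← map_pow, ← Units.val_pow_eq_pow_val, h]
        rw [Units.val_neg, map_neg]
        exact ((w.1).map_neg _).symm
      rw [h, Real.log_pow]
      norm_num
    rw [show Matrix.of (fun i w : {w // w ≠ w₀} =>
        (w.val.mult : ℝ) * Real.log (w.val ((u (e i) : 𝓞 E) : E))) = (2 : ℝ) • Matrix.of
        (fun i w : {w // w ≠ w₀} => (w.val.mult : ℝ) * Real.log (w.val ((v (e i) : 𝓞 E) : E))) from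
      Matrix.ext fun i w => by
        rw [Matrix.of_apply, Matrix.smul_apply, Matrix.of_apply, hlog, smul_eq_mul]
        ring, Matrix.det_smul, abs_mul, abs_pow, abs_two, hc, Fintype.card_fin]
  have h2 := Units.regOfFamily_div_regulator u
  rw [hu, index_cycSubgroup E hζ hN, hreg, mul_div_assoc, Units.regOfFamily_div_regulator v,
    mul_assoc] at h2
  rw [← hW]
  exact mul_left_cancel₀ (pow_ne_zero _ two_ne_zero) h2

omit hζ hN in
/-- For a prime power every factor is `1`. -/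
theorem eulerFactor_primePow {q n : ℕ} (hq : q.Prime) (hNq : N = q ^ n)
    {χ : DirichletCharacter ℂ N} (hne : χ ≠ 1) : eulerFactor χ = 1 := by
  refine prod_eq_one fun l hl => ?_
  obtain rfl : l = q := by
    have h1 := Nat.dvd_of_mem_primeFactors hl
    exact (Nat.prime_dvd_prime_iff_eq (Nat.prime_of_mem_primeFactors hl) hq).1
      ((Nat.prime_of_mem_primeFactors hl).dvd_of_dvd_pow (hNq ▸ h1))
  rw [χ.primitiveCharacter.map_nonunit, sub_zero, norm_one]
  rw [ZMod.isUnit_iff_coprime]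
  intro hco
  refine hne (DirichletCharacter.eq_one_iff_conductor_eq_one.2 ?_)
  obtain ⟨k, -, hk⟩ := (Nat.dvd_prime_pow (m := n) hq).1
    (χ.conductor_dvd_level.trans hNq.dvd)
  rcases k with _ | k
  · rw [hk, pow_zero]
  · exact absurd (hco.coprime_dvd_right (hk ▸ dvd_pow_self l k.succ_ne_zero))
      (by rw [Nat.coprime_self]; exact hq.ne_one)

end FA.CycloUnitIndex
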