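import Fermat.Agent.PadicClassNumber.CyclotomicUnit
import Fermat.Agent.PadicClassNumber.Regulator
import Fermat.Agent.ConductorDiscr.PlusPart
import Fermat.Agent.CycloIndex.Determinant

/-!
# The regulator of the cyclotomic units of a real subfield

For a totally real `E ⊆ ℚ(ζ)` the units `N_{K/E}((1 - ζ^a) / (1 - ζ))` are the `σ η / η`,
`η = N_{K/E}(1 - ζ)`, and their regulator is the product of the absolute values of the character
sums of `log |g (1 - ζ)|` (`exists_family`).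
-/

set_option autoImplicit false
set_option linter.unusedSectionVars false
set_option linter.style.haveILetI false

noncomputable section

open NumberField Finset
open FA.PadicClassNumber (resHom resHom_surjective algebraMap_resHom resHom_eq_one_iff charE
  charE_resHom charE_ne_one charE_injective placeOf placeOf_bijective placeOf_apply)
open scoped Classical ComplexConjugate

namespace FA.CycloUnitIndex

variable (N : ℕ) [NeZero N] (K : Type) [Field K] [NumberField K] [IsCyclotomicExtension {N} ℚ K]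
  [IsAbelianGalois ℚ K] (E : IntermediateField ℚ K) [IsGalois ℚ E] [IsTotallyReal E]

local notation "gal" => IsCyclotomicExtension.Rat.galEquivZMod N K

/-- The cyclotomic units of `E`. -/
def cycSubgroup (ζ : K) : Subgroup (𝓞 E)ˣ :=
  Subgroup.closure ({-1} ∪
    {u | ∃ a : ℕ, a.Coprime N ∧ ((u : 𝓞 E) : E) = Algebra.norm E ((1 - ζ ^ a) / (1 - ζ))})

theorem gal_comm (g h : Gal(K/ℚ)) : g * h = h * g := IsMulCommutative.is_comm.comm g h

theorem galE_comm (σ τ : Gal(E/ℚ)) : σ * τ = τ * σ := by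
  obtain ⟨g, rfl⟩ := resHom_surjective K E σ
  obtain ⟨h, rfl⟩ := resHom_surjective K E τ
  rw [← map_mul, gal_comm, map_mul]

/-- Norms of conjugates. -/
theorem norm_gal (g : Gal(K/ℚ)) (x : K) :
    Algebra.norm E (g x) = resHom K E g (Algebra.norm E x) := by
  refine (algebraMap E K).injective ?_
  rw [show algebraMap E K (resHom K E g (Algebra.norm E x)) =
    g (algebraMap E K (Algebra.norm E x)) from algebraMap_resHom K E g _,
    Algebra.norm_eq_prod_automorphisms, Algebra.norm_eq_prod_automorphisms, map_prod]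
  exact prod_congr rfl fun ρ _ => DFunLike.congr_fun (gal_comm K (ρ.restrictScalars ℚ) g) x

/-- A root of unity in a real field. -/
theorem eq_one_or_neg_one_of_pow {x : E} {n : ℕ} (hn : n ≠ 0) (hx : x ^ n = 1) :
    x = 1 ∨ x = -1 := by
  obtain ⟨φ⟩ : Nonempty (E →+* ℂ) := ⟨(IsAlgClosed.lift : E →ₐ[ℚ] ℂ).toRingHom⟩
  have h1 : ‖φ x‖ = 1 := (pow_eq_one_iff_of_nonneg (norm_nonneg _) hn).1 (by
    rw [← norm_pow, ← map_pow, hx, map_one, norm_one])
  have hre : conj (φ x) = φ x := DFunLike.congr_fun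
    (ComplexEmbedding.isReal_iff.1 (IsTotallyReal.complexEmbedding_isReal φ)) x
  have h2 : φ x * φ x = 1 := by
    nth_rw 1 [← hre]
    rw [← Complex.normSq_eq_conj_mul_self, Complex.normSq_eq_norm_sq, h1]
    norm_num
  rcases mul_self_eq_one_iff.1 h2 with h | h
  · exact Or.inl (φ.injective (h.trans (map_one φ).symm))
  · exact Or.inr (φ.injective (h.trans (by rw [map_neg, map_one])))

theorem eq_one_or_neg_one_of_torsion {z : (𝓞 E)ˣ} (hz : z ∈ Units.torsion E) :
    z = 1 ∨ z = -1 := by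
  have hfin : IsOfFinOrder z := hz
  have h : ((z : 𝓞 E) : E) ^ orderOf z = 1 := by
    have h1 := congrArg (fun w : (𝓞 E)ˣ => ((w : 𝓞 E) : E)) (pow_orderOf_eq_one z)
    simpa only [Units.val_pow_eq_pow_val, Units.val_one, map_pow, map_one] using h1
  rcases eq_one_or_neg_one_of_pow K E hfin.orderOf_pos.ne' h with h1 | h1
  · exact Or.inl (Units.ext (RingOfIntegers.ext (by rw [h1]; rfl)))
  · exact Or.inr (Units.ext (RingOfIntegers.ext (by rw [h1]; rfl)))

theorem neg_one_mem_torsion : (-1 : (𝓞 E)ˣ) ∈ Units.torsion E :=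
  (CommGroup.mem_torsion (G := (𝓞 E)ˣ) _).2
    (isOfFinOrder_iff_pow_eq_one.2 ⟨2, two_pos, neg_one_sq⟩)

variable {N K} {ζ : K} (hζ : IsPrimitiveRoot ζ N) (hN : 1 < N)

include hζ hN

theorem norm_pi_ne_zero : Algebra.norm E (1 - ζ) ≠ 0 :=
  Algebra.norm_ne_zero_iff.2 (sub_ne_zero.2 (hζ.ne_one hN).symm)

theorem gal_pi_eq {a : ℕ} (ha : a.Coprime N) :
    (gal).symm (ZMod.unitOfCoprime a ha) (1 - ζ) = 1 - ζ ^ a := by
  rw [map_sub, map_one, IsCyclotomicExtension.Rat.galEquivZMod_apply_of_pow_eq N K _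
    hζ.pow_eq_one, MulEquiv.apply_symm_apply, ZMod.coe_unitOfCoprime, ZMod.val_natCast,
    ← pow_eq_pow_mod a hζ.pow_eq_one]

/-- The units are quotients of conjugates of `N_{K/E}(1 - ζ)`. -/
theorem norm_quot {a : ℕ} (ha : a.Coprime N) :
    Algebra.norm E ((1 - ζ ^ a) / (1 - ζ)) =
      resHom K E ((gal).symm (ZMod.unitOfCoprime a ha)) (Algebra.norm E (1 - ζ)) /
        Algebra.norm E (1 - ζ) := by
  rw [← norm_gal, gal_pi_eq hζ hN ha, eq_div_iff (norm_pi_ne_zero E hζ hN), ← map_mul,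
    div_mul_cancel₀ _ (sub_ne_zero.2 (hζ.ne_one hN).symm)]

theorem exists_unit_eq {a : ℕ} (ha : a.Coprime N) :
    ∃ u : (𝓞 E)ˣ, ((u : 𝓞 E) : E) = Algebra.norm E ((1 - ζ ^ a) / (1 - ζ)) := by
  obtain ⟨v, hv⟩ := hζ.toInteger_isPrimitiveRoot.associated_sub_one_pow_sub_one_of_coprime ha
  refine ⟨Units.map (RingOfIntegers.norm E) v, ?_⟩
  have h := congrArg (fun t : 𝓞 K => (t : K)) hv
  simp only [map_mul, map_sub, map_pow, map_one] at h
  rw [show algebraMap (𝓞 K) K hζ.toInteger = ζ from rfl] at h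
  have h' : ((v : 𝓞 K) : K) = (1 - ζ ^ a) / (1 - ζ) := by
    rw [eq_div_iff (sub_ne_zero.2 (hζ.ne_one hN).symm)]
    linear_combination -h
  rw [← h']
  rfl

/-- The logarithm of a conjugate of the norm. -/
theorem log_norm_eq_sum (φ : K →+* ℂ) (g : Gal(K/ℚ)) :
    Real.log ‖φ (algebraMap E K (resHom K E g (Algebra.norm E (1 - ζ))))‖ =
      ∑ ρ : Gal(K/E), Real.log ‖φ ((g * ρ.restrictScalars ℚ) (1 - ζ))‖ := by
  rw [show algebraMap E K (resHom K E g (Algebra.norm E (1 - ζ))) =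
      g (algebraMap E K (Algebra.norm E (1 - ζ))) from algebraMap_resHom K E g _,
    Algebra.norm_eq_prod_automorphisms, map_prod, map_prod, norm_prod, Real.log_prod fun ρ _ => ?_]
  · rfl
  · exact norm_ne_zero_iff.2 ((map_ne_zero φ).2 ((map_ne_zero g).2 ((map_ne_zero ρ).2
      (sub_ne_zero.2 (hζ.ne_one hN).symm))))

/-- The character sum over `Gal(E/ℚ)` is one over `Gal(K/ℚ)`. -/
theorem sum_charE_eq (φ : K →+* ℂ) (θ : DirichletCharacter ℂ N)
    (hθ : ∀ σ ∈ E.fixingSubgroup, θ (gal σ) = 1) :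
    ∑ τ : Gal(E/ℚ), (Real.log ‖φ (algebraMap E K (τ (Algebra.norm E (1 - ζ))))‖ : ℂ) *
        charE N K E θ hθ τ =
      ∑ g : Gal(K/ℚ), θ (gal g) * (Real.log ‖φ (g (1 - ζ))‖ : ℂ) := by
  rw [← sum_fiberwise univ (resHom K E)
    (fun g : Gal(K/ℚ) => θ (gal g) * (Real.log ‖φ (g (1 - ζ))‖ : ℂ))]
  refine sum_congr rfl fun τ _ => ?_
  obtain ⟨g, rfl⟩ := resHom_surjective K E τ
  rw [log_norm_eq_sum E hζ hN φ g, Complex.ofReal_sum, sum_mul]
  have hker : ∀ ρ : Gal(K/E), resHom K E (g * ρ.restrictScalars ℚ) = resHom K E g := fun ρ => by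
    rw [map_mul, (resHom_eq_one_iff K E (σ := ρ.restrictScalars ℚ)).2 (by
      rw [IntermediateField.mem_fixingSubgroup_iff]
      exact fun x hx => ρ.commutes ⟨x, hx⟩), mul_one]
  refine sum_bij (fun ρ _ => g * ρ.restrictScalars ℚ)
    (fun ρ _ => mem_filter.2 ⟨mem_univ _, hker ρ⟩)
    (fun a _ b _ h => AlgEquiv.ext fun x => DFunLike.congr_fun (mul_left_cancel h) x)
    (fun σ hσ => ?_) fun ρ _ => by rw [← charE_resHom N K E θ hθ, hker, mul_comm]
  have h1 : g⁻¹ * σ ∈ E.fixingSubgroup := (resHom_eq_one_iff K E).1 (by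
    rw [map_mul, map_inv, (mem_filter.1 hσ).2, inv_mul_cancel])
  rw [IntermediateField.mem_fixingSubgroup_iff] at h1
  exact ⟨AlgEquiv.ofRingEquiv (f := (g⁻¹ * σ).toRingEquiv) fun x => h1 _ x.2, mem_univ _,
    (congrArg (g * ·) (AlgEquiv.ext fun x => rfl)).trans (mul_inv_cancel_left g σ)⟩

omit hζ hN

theorem sum_hom_eq_zero {c : Gal(E/ℚ) →* ℂ} (hc : c ≠ 1) : ∑ τ, c τ = 0 := by
  obtain ⟨τ₀, hτ₀⟩ : ∃ τ₀, c τ₀ ≠ 1 := not_forall.1 fun h => hc (MonoidHom.ext h)
  refine eq_zero_of_mul_eq_self_left hτ₀ ?_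
  rw [mul_sum]
  exact Fintype.sum_bijective (fun τ => τ₀ * τ) (Group.mulLeft_bijective _) _ _
    fun τ => (map_mul _ _ _).symm

theorem conj_hom (c : Gal(E/ℚ) →* ℂ) (τ : Gal(E/ℚ)) : conj (c τ) = c τ⁻¹ := by
  have h1 : ‖c τ‖ = 1 := (pow_eq_one_iff_of_nonneg (norm_nonneg _) (orderOf_pos τ).ne').1 (by
    rw [← norm_pow, ← map_pow, pow_orderOf_eq_one, map_one, norm_one])
  rw [← Complex.inv_eq_conj h1]
  exact inv_eq_of_mul_eq_one_right (by rw [← map_mul, mul_inv_cancel, map_one])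

include hζ hN

/-- **The regulator of the family.** -/
theorem exists_family (φ : K →+* ℂ) : ∃ u : Fin (Units.rank E) → (𝓞 E)ˣ,
    Subgroup.closure (Set.range u) ⊔ Units.torsion E = cycSubgroup N K E ζ ∧
      Units.regOfFamily u =
        ∏ χ ∈ (univ.filter fun χ : DirichletCharacter ℂ N =>
          χ ∈ FA.AbelianZeta.fieldChars N K E).erase 1,
          ‖∑ g : Gal(K/ℚ), χ (gal g) * (Real.log ‖φ (g (1 - ζ))‖ : ℂ)‖ := by
  obtain ⟨e⟩ : Nonempty (Fin (Units.rank E) ≃ {σ : Gal(E/ℚ) // σ ≠ 1}) := by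
    refine ⟨(Fintype.equivFinOfCardEq ?_).symm⟩
    have := FA.PadicClassNumber.rank_add_one (E := E)
    rw [Fintype.card_subtype_compl, Fintype.card_subtype_eq]
    omega
  choose lift hlift using resHom_surjective K E
  have hcop : ∀ g : Gal(K/ℚ), ((gal g : ZMod N)).val.Coprime N := fun g =>
    ZMod.val_coe_unit_coprime _
  have hquot : ∀ g : Gal(K/ℚ), Algebra.norm E ((1 - ζ ^ ((gal g : ZMod N)).val) / (1 - ζ)) =
      resHom K E g (Algebra.norm E (1 - ζ)) / Algebra.norm E (1 - ζ) := fun g => by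
    rw [norm_quot E hζ hN (hcop g)]
    congr 3
    rw [MulEquiv.symm_apply_eq]
    exact Units.ext (by rw [ZMod.coe_unitOfCoprime, ZMod.natCast_zmod_val])
  choose u hu using fun i => exists_unit_eq E hζ hN (hcop (lift (e i : Gal(E/ℚ))))
  have hu' : ∀ i, ((u i : 𝓞 E) : E) =
      (e i : Gal(E/ℚ)) (Algebra.norm E (1 - ζ)) / Algebra.norm E (1 - ζ) := fun i => by
    rw [hu, hquot, hlift]
  refine ⟨u, le_antisymm (sup_le ((Subgroup.closure_le _).2 ?_) fun z hz => ?_)
    ((Subgroup.closure_le _).2 ?_), ?_⟩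
  · rintro _ ⟨i, rfl⟩
    exact Subgroup.subset_closure (Or.inr ⟨_, hcop _, hu i⟩)
  · rcases eq_one_or_neg_one_of_torsion K E hz with rfl | rfl
    · exact one_mem _
    · exact Subgroup.subset_closure (Or.inl rfl)
  · rintro x (rfl | ⟨a, ha, hx⟩)
    · exact Subgroup.mem_sup_right (neg_one_mem_torsion K E)
    rw [norm_quot E hζ hN ha] at hx
    set σ := resHom K E ((gal).symm (ZMod.unitOfCoprime a ha))
    rcases eq_or_ne σ 1 with hσ | hσ
    · rw [hσ, AlgEquiv.one_apply, div_self (norm_pi_ne_zero E hζ hN)] at hx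
      rw [show x = 1 from Units.ext (RingOfIntegers.ext (hx.trans (by simp)))]
      exact one_mem _
    · refine Subgroup.mem_sup_left (Subgroup.subset_closure ⟨e.symm ⟨σ, hσ⟩, ?_⟩)
      refine Units.ext (RingOfIntegers.ext ?_)
      rw [hx, hu', Equiv.apply_symm_apply]
  set X := univ.filter fun χ : DirichletCharacter ℂ N => χ ∈ FA.AbelianZeta.fieldChars N K E
  have hX : ∀ t : X, ∀ σ ∈ E.fixingSubgroup, (t : DirichletCharacter ℂ N) (gal σ) = 1 :=
    fun t => (FA.AbelianZeta.mem_fieldChars_iff N K E).1 (mem_filter.1 t.2).2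
  set c : X → (Gal(E/ℚ) →* ℂ) := fun t => charE N K E _ (hX t)
  let t₀ : X := ⟨1, mem_filter.2 ⟨mem_univ _, one_mem _⟩⟩
  have hc₀ : ∀ τ, c t₀ τ = 1 := fun τ => by
    obtain ⟨g, rfl⟩ := resHom_surjective K E τ
    simp only [c]
    rw [charE_resHom]
    exact MulChar.one_apply_coe _
  set φE := φ.comp (algebraMap E K)
  set F : Gal(E/ℚ) → ℝ := fun τ =>
    Real.log ‖φ (algebraMap E K (τ (Algebra.norm E (1 - ζ))))‖
  set A : Matrix Gal(E/ℚ) Gal(E/ℚ) ℝ := Matrix.of fun i w =>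
    if i = 1 then 1 else F (i * w) - F w with hA
  have hcard : Fintype.card Gal(E/ℚ) = Fintype.card X := by
    rw [Fintype.card_coe, FA.ConductorDiscr.card_chars_eq K E (RingEquiv.refl E),
      ← Nat.card_eq_fintype_card, IsGalois.card_aut_eq_finrank]
  obtain ⟨e'⟩ := (Fintype.truncEquivOfCardEq hcard).nonempty
  have hdet := FA.CycloIndex.abs_det_eq_card_mul_prod (t₀ := t₀) e' A (fun w t => c t w)
    (fun t => ∑ w, (F w : ℂ) * c t w) (w₀ := 1) (fun w => if_pos rfl) hc₀
    (fun t => map_one (c t))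
    (fun t ht => sum_hom_eq_zero E (charE_ne_one N K E _ (hX t) fun h => ht (Subtype.ext h)))
    (fun s t => by
      simp only [conj_hom]
      let d : Gal(E/ℚ) →* ℂ :=
        { toFun := fun w => c s w⁻¹ * c t w
          map_one' := by rw [inv_one, map_one, map_one, one_mul]
          map_mul' := fun v w => by rw [mul_inv_rev, map_mul, map_mul]; ring }
      show ∑ w, d w = _
      split_ifs with hst
      · subst hst
        rw [sum_congr rfl fun w _ => (show d w = 1 by
          show c s w⁻¹ * c s w = 1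
          rw [← map_mul, inv_mul_cancel, map_one]), sum_const, card_univ, nsmul_eq_mul, mul_one]
      · refine sum_hom_eq_zero E fun h => hst (Subtype.ext ?_)
        refine charE_injective N K E (hX s) (hX t) (MonoidHom.ext fun w => ?_)
        have h1 : c s w⁻¹ * c t w = 1 := DFunLike.congr_fun h w
        calc c s w = c s w * (c s w⁻¹ * c t w) := by rw [h1, mul_one]
          _ = c t w := by rw [← mul_assoc, ← map_mul, mul_inv_cancel, map_one, one_mul])
    (fun i hi t => by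
      simp only [hA, Matrix.of_apply, if_neg hi, Complex.ofReal_sub, sub_mul, sum_sub_distrib,
        one_mul, mul_sum]
      congr 1
      refine Fintype.sum_bijective (fun w => i * w) (Group.mulLeft_bijective i) _ _ fun w => ?_
      rw [conj_hom, mul_left_comm, ← map_mul, inv_mul_cancel_left])
  -- the places
  let P : Gal(E/ℚ) ≃ InfinitePlace E := Equiv.ofBijective _ (placeOf_bijective φE)
  let e'' : {σ : Gal(E/ℚ) // σ ≠ 1} ≃ {w : InfinitePlace E // w ≠ P 1} :=
    P.subtypeEquiv fun σ => by simp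
  have hM := Units.finrank_mul_regOfFamily_eq_det u (P 1) (e.trans e'').symm
  rw [← Matrix.det_reindex_self P.symm] at hM
  have hentry : ∀ (σ : Gal(E/ℚ)) (hσ : σ ≠ 1) (w : Gal(E/ℚ)),
      Real.log (P w ((u (e.symm ⟨σ, hσ⟩) : 𝓞 E) : E)) = F (σ * w) - F w := fun σ hσ w => by
    rw [show P w = placeOf φE w from rfl, placeOf_apply, hu', Equiv.apply_symm_apply, map_div₀,
      map_div₀, norm_div, Real.log_div, ← AlgEquiv.mul_apply, galE_comm]
    · rfl
    all_goals
      refine norm_ne_zero_iff.2 ((map_ne_zero φE).2 ((map_ne_zero w).2 ?_))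
    · exact (map_ne_zero σ).2 (norm_pi_ne_zero E hζ hN)
    · exact norm_pi_ne_zero E hζ hN
  rw [show (Matrix.reindex P.symm P.symm) _ = A from Matrix.ext fun i w => by
    simp only [Matrix.reindex_apply, Matrix.submatrix_apply, Matrix.of_apply, Equiv.symm_symm,
      IsTotallyReal.mult_eq, Nat.cast_one, one_mul, hA]
    by_cases hi : i = 1
    · rw [dif_pos (congrArg P hi), if_pos hi]
    · rw [dif_neg (fun h => hi (P.injective h)), if_neg hi, ← hentry i hi w]
      congr 4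
      simp [e''], hdet, ← Nat.card_eq_fintype_card, IsGalois.card_aut_eq_finrank] at hM
  rw [mul_left_cancel₀ (Nat.cast_ne_zero.2 (Module.finrank_pos (R := ℚ) (M := E)).ne') hM]
  refine prod_bij (fun t _ => (t : DirichletCharacter ℂ N))
    (fun t ht => mem_erase.2 ⟨fun h => (mem_erase.1 ht).1 (Subtype.ext h), t.2⟩)
    (fun s _ t _ h => Subtype.ext h)
    (fun χ hχ => ⟨⟨χ, (mem_erase.1 hχ).2⟩, mem_erase.2
      ⟨fun h => (mem_erase.1 hχ).1 (congrArg Subtype.val h), mem_univ _⟩, rfl⟩) fun t _ => ?_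
  rw [← sum_charE_eq E hζ hN φ _ (hX t)]

end FA.CycloUnitIndex
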