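import Fermat.Agent.CycloUnitIndex.Units
import Fermat.Agent.CycloUnitIndex.Distribution
import Fermat.Agent.PadicClassNumber.Algebraic
import Fermat.Agent.PadicDirichletL.NonVanish
import Fermat.Agent.Root.SummaryConductorDiscriminant
import Fermat.Agent.Root.SummaryPolyaVinogradov

/-!
# The index of the cyclotomic units at any conductor

The character sums are `∏ (1 - χ₀(q))`, `q ∣ N`, times `√f |L(1, χ₀⁻¹)|` in absolute value; with
the residue of the zeta function and the conductor–discriminant formula the regulator of the units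
is `∏ ∏ |1 - χ₀(q)| · 2^r h R`, so their index is `2^r h ∏ ∏ |1 - χ₀(q)|`.
-/

set_option autoImplicit false
set_option linter.unusedSectionVars false
set_option linter.style.haveILetI false

noncomputable section

open NumberField Finset
open scoped Classical

namespace FA.CycloUnitIndex

instance neZero_conductor_complex {n : ℕ} [NeZero n] (χ : DirichletCharacter ℂ n) :
    NeZero χ.conductor :=
  ⟨χ.conductor_ne_zero⟩

theorem norm_char_unit {f : ℕ} [NeZero f] (θ : DirichletCharacter ℂ f) (k : (ZMod f)ˣ) :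
    ‖θ k‖ = 1 :=
  (pow_eq_one_iff_of_nonneg (norm_nonneg _) (orderOf_pos k).ne').1 (by
    rw [← norm_pow, ← map_pow, ← Units.val_pow_eq_pow_val, pow_orderOf_eq_one, Units.val_one,
      map_one, norm_one])

/-- `|∑ χ(a) log |1 - z^a|| = √f |L(1, χ⁻¹)|`. -/
theorem norm_levelSum {f : ℕ} [NeZero f] (hf : 1 < f) {χ : DirichletCharacter ℂ f}
    (hprim : χ.IsPrimitive) (hev : χ.Even) {z : ℂ} (hz : IsPrimitiveRoot z f) :
    ‖levelSum χ z‖ = Real.sqrt f * ‖DirichletCharacter.LFunction χ⁻¹ 1‖ := by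
  set ψ := AddChar.zmodChar f hz.pow_eq_one with hψdef
  have hψ : ψ.IsPrimitive := AddChar.zmodChar_primitive_of_primitive_root f hz
  have hprim' : χ⁻¹.IsPrimitive := (DirichletCharacter.conductor_inv χ).trans hprim
  have hev' : χ⁻¹.Even := by
    show χ⁻¹ (-1) = 1
    rw [MulChar.inv_apply_eq_inv', show χ (-1) = 1 from hev, inv_one]
  have hg : ‖gaussSum χ⁻¹ ψ‖ = Real.sqrt f := by
    obtain ⟨k, hk⟩ := FA.PadicDirichletL.exists_stdAddChar_eq hψ
    have h : χ⁻¹ (k : ZMod f) * gaussSum χ⁻¹ ψ = gaussSum χ⁻¹ (ZMod.stdAddChar (N := f)) := by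
      rw [show ψ = (ZMod.stdAddChar (N := f)).mulShift (k : ZMod f) from
        DFunLike.ext _ _ fun a => (hk a).trans (AddChar.mulShift_apply).symm]
      exact gaussSum_mulShift χ⁻¹ _ k
    have h' := congrArg norm h
    rwa [norm_mul, norm_char_unit, one_mul,
      FA.OrderTheta.norm_gaussSum_primitive hf hprim'] at h'
  have hsum : levelSum χ z = ∑ a, χ a * (Real.log ‖1 - ψ a‖ : ℂ) := by
    rw [levelSum_eq_sum_zmod]
    exact sum_congr rfl fun a _ => by rw [hψdef, AddChar.zmodChar_apply]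
  have hL := congrArg norm (FA.PadicDirichletL.lFunction_one_even hf hprim' hev' hψ)
  rw [inv_inv, norm_mul, norm_neg, norm_div, hg, Complex.norm_natCast, ← hsum] at hL
  have hs : Real.sqrt f * Real.sqrt f = f := Real.mul_self_sqrt (Nat.cast_nonneg f)
  have hf0 : (f : ℝ) ≠ 0 := Nat.cast_ne_zero.2 (NeZero.ne f)
  rw [hL, ← mul_assoc, ← mul_div_assoc, hs, div_self hf0, one_mul]

variable {N : ℕ} [NeZero N] {K : Type} [Field K] [NumberField K] [IsCyclotomicExtension {N} ℚ K]
  [IsAbelianGalois ℚ K] (E : IntermediateField ℚ K) [IsGalois ℚ E] [IsTotallyReal E]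
  {ζ : K} (hζ : IsPrimitiveRoot ζ N) (hN : 1 < N)

local notation "gal" => IsCyclotomicExtension.Rat.galEquivZMod N K

/-- The Euler factor of a character. -/
def eulerFactor (χ : DirichletCharacter ℂ N) : ℝ :=
  ∏ q ∈ N.primeFactors, ‖1 - χ.primitiveCharacter (q : ZMod χ.conductor)‖

include hζ in
theorem norm_sum_gal (φ : K →+* ℂ) {χ : DirichletCharacter ℂ N} (hne : χ ≠ 1)
    (hH : ∀ σ ∈ E.fixingSubgroup, χ (gal σ) = 1) :
    ‖∑ g : Gal(K/ℚ), χ (gal g) * (Real.log ‖φ (g (1 - ζ))‖ : ℂ)‖ =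
      eulerFactor χ * (Real.sqrt χ.conductor *
        ‖DirichletCharacter.LFunction χ.primitiveCharacter⁻¹ 1‖) := by
  set f := χ.conductor with hfdef
  set χ₀ := χ.primitiveCharacter
  have hfN : f ∣ N := χ.conductor_dvd_level
  have hf1 : 1 < f := by
    by_contra h
    refine hne (DirichletCharacter.eq_one_iff_conductor_eq_one.2 ?_)
    have := NeZero.pos χ.conductor
    omega
  have hev : χ₀.Even := by
    show χ₀ (-1) = 1
    have h := hH _ (FA.PadicClassNumber.galEquiv_symm_neg_one_mem N K E)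
    rw [MulEquiv.apply_symm_apply, ← χ.changeLevel_primitiveCharacter,
      DirichletCharacter.changeLevel_eq_cast_of_dvd _ hfN,
      Units.val_neg, Units.val_one, ← ZMod.castHom_apply (h := hfN), map_neg, map_one] at h
    exact h
  have hw : IsPrimitiveRoot (φ ζ) N := hζ.map_of_injective φ.injective
  have hsum : ∑ g : Gal(K/ℚ), χ (gal g) * (Real.log ‖φ (g (1 - ζ))‖ : ℂ) =
      ∑ g : (ZMod N)ˣ, χ₀ (((g : ZMod N).val : ℕ) : ZMod f) *
        (Real.log ‖1 - φ ζ ^ (g : ZMod N).val‖ : ℂ) := by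
    refine Fintype.sum_equiv (gal).toEquiv _ _ fun g => ?_
    congr 1
    · refine Eq.trans (congrArg (fun ψ : DirichletCharacter ℂ N => ψ (gal g : ZMod N))
        χ.changeLevel_primitiveCharacter.symm) ?_
      rw [DirichletCharacter.changeLevel_eq_cast_of_dvd _ hfN, ZMod.natCast_val]
      rfl
    · rw [map_sub, map_one, IsCyclotomicExtension.Rat.galEquivZMod_apply_of_pow_eq N K g
        hζ.pow_eq_one, map_sub, map_one, map_pow]
      rfl
  rw [hsum, sum_units_eq χ₀ hf1 hfN hw, norm_mul, norm_prod,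
    norm_levelSum hf1 χ.primitiveCharacter_isPrimitive hev
      (hw.pow (NeZero.pos N) (Nat.div_mul_cancel hfN).symm)]
  rfl

include hζ hN in
/-- **The index of the cyclotomic units.** -/
theorem index_cycSubgroup :
    ((cycSubgroup N K E ζ).index : ℝ) = 2 ^ Units.rank E * classNumber E *
      ∏ χ ∈ (univ.filter fun χ : DirichletCharacter ℂ N =>
        χ ∈ FA.AbelianZeta.fieldChars N K E).erase 1, eulerFactor χ := by
  obtain ⟨φ⟩ : Nonempty (K →+* ℂ) := ⟨(IsAlgClosed.lift : K →ₐ[ℚ] ℂ).toRingHom⟩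
  obtain ⟨u, hu, hreg⟩ := exists_family E hζ hN φ
  set Xc := univ.filter fun χ : DirichletCharacter ℂ N => χ ∈ FA.AbelianZeta.fieldChars N K E
  have h1 : (1 : DirichletCharacter ℂ N) ∈ Xc := mem_filter.2 ⟨mem_univ _, Subgroup.one_mem _⟩
  have hres : (dedekindZeta_residue E : ℂ) = ∏ χ ∈ Xc.erase 1,
      DirichletCharacter.LFunction χ.primitiveCharacter 1 :=
    FA.AbelianZeta.residue_eq_prod h1 fun s hs =>
      FA.ConductorDiscr.dedekindZeta_eq_prodL K E (RingEquiv.refl E) hs
  have hinv : ∀ χ ∈ Xc.erase 1, χ⁻¹ ∈ Xc.erase 1 := fun χ hχ =>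
    mem_erase.2 ⟨inv_ne_one.2 (mem_erase.1 hχ).1,
      mem_filter.2 ⟨mem_univ _, inv_mem (mem_filter.1 (mem_erase.1 hχ).2).2⟩⟩
  let Φ : (q : ℕ) → DirichletCharacter ℂ q → ℝ := fun q ψ =>
    if h : q ≠ 0 then haveI : NeZero q := ⟨h⟩; ‖DirichletCharacter.LFunction ψ 1‖ else 0
  have hΦ : ∀ (q : ℕ) [NeZero q] (ψ : DirichletCharacter ℂ q),
      Φ q ψ = ‖DirichletCharacter.LFunction ψ 1‖ := fun q _ ψ => dif_pos (NeZero.ne q)
  have hprodL : ∏ χ ∈ Xc.erase 1, ‖DirichletCharacter.LFunction χ.primitiveCharacter⁻¹ 1‖ =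
      dedekindZeta_residue E := by
    have h := congrArg norm hres
    rw [norm_prod, Complex.norm_real, Real.norm_eq_abs,
      abs_of_pos (dedekindZeta_residue_pos _)] at h
    rw [h]
    refine prod_nbij' (fun χ => χ⁻¹) (fun χ => χ⁻¹) hinv hinv (fun χ _ => inv_inv χ)
      (fun χ _ => inv_inv χ) fun χ _ => ?_
    rw [← hΦ χ⁻¹.conductor, FA.AbelianFE.primitive_inv χ Φ, hΦ]
  have hdisc : (discr E : ℝ) = ∏ χ ∈ Xc.erase 1, (χ.conductor : ℝ) := by
    have h := FA.Summary.conductor_discriminant N K E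
    rw [show (FA.AbelianZeta.fieldChars N K E : Set (DirichletCharacter ℂ N)).toFinite.toFinset =
      Xc from Finset.ext fun χ => by
        rw [Set.Finite.mem_toFinset, SetLike.mem_coe, mem_filter, and_iff_right (mem_univ _)],
      ← mul_prod_erase _ _ h1, DirichletCharacter.conductor_one,
      one_mul] at h
    have hd := Int.natAbs_of_nonneg (FA.PadicClassNumber.discr_pos (E := E)).le
    rw [h] at hd
    rw [← hd]
    push_cast
    rfl
  have hsqrt : ∏ χ ∈ Xc.erase 1, Real.sqrt χ.conductor = Real.sqrt (discr E : ℝ) := by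
    rw [hdisc, ← Real.sqrt_sq (prod_nonneg fun χ _ => Real.sqrt_nonneg _), ← prod_pow]
    exact congrArg Real.sqrt (prod_congr rfl fun χ _ => Real.sq_sqrt (Nat.cast_nonneg _))
  have hregval : Units.regOfFamily u = (∏ χ ∈ Xc.erase 1, eulerFactor χ) *
      (2 ^ Units.rank E * Units.regulator E * classNumber E) := by
    rw [hreg, prod_congr rfl fun χ hχ => norm_sum_gal E hζ φ (mem_erase.1 hχ).1
      ((FA.AbelianZeta.mem_fieldChars_iff N K E).1 (mem_filter.1 (mem_erase.1 hχ).2).2),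
      prod_mul_distrib, prod_mul_distrib, hsqrt, hprodL, FA.PadicClassNumber.residue_eq,
      mul_div_cancel₀ _ (Real.sqrt_ne_zero'.2 (Int.cast_pos.2 FA.PadicClassNumber.discr_pos))]
  rw [← hu, ← Units.regOfFamily_div_regulator u, hregval,
    div_eq_iff (Units.regulator_ne_zero _)]
  ring

end FA.CycloUnitIndex
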